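import Mathlib
import Fermat.Agent.LT.T7.H826.Level2Q
import Fermat.Agent.LT.T7.H893.SupplySpec

/-!
# Row LT, tower T7, node T7.L2Q.1 `SupplyQC` (quadratic step `F = ℚ(√-3)` over `ℚ`):
# FIRST CUT -- Spec (helper962, ASSIST for the owner of the node; mirror of helper893)

OFF-MAIN.  Definitions and frozen Props only (the proved top is `SupplyQTop.lean`).  No hole,
nothing assumed.  ADDITIVE (new names only, all suffixed `962`).  Vocabulary:
`T7/H826/Level2Q.lean` (helper826@4ba4a298a, sha256 3acaa310), `T7/H893/SupplySpec.lean`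
(helper893@6b752a76a.., first cut of the cyclic node), byte-identical copies.

    supplyQC_of962 : SetupQC962 F → H893.ProjC F → ProjQC962 w0 → ProjQC962 w1 → FamQC962 P F
                       → L2Q.SupplyQC P F
    projQC_w0_of962 : H893.ProjC ℚ → ProjQC962 w0          (the trivial type is the cyclic leaf)

## The cut (the same as the first cut of `SupplyC`)

`L2Q.SupplyQC P F` asks for ONE datum `Dt : L2QData F` with the fields of `IsL2QData`.  The datum
has a COMMON part (`σ`, frames, base level `𝔑₀`, `S'`, `S`, the split prime `u` and its orbit) and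
a part which depends on the bad element `g` (level `𝔫 g`, scalar `c g`, family `φ' g` upstairs,
the TWO families `f w0 g`, `f w1 g` downstairs, depth `m₀ g`); every field of `IsL2QData` is
either about the common part or about ONE bad `g`.

* **`SetupQC962 F`** (leaf; mirror of `H893.SetupC`): the common part exists, `L2QBase962` with
  `IsL2QBase962`.  As in the cyclic case the structure carries the level-independent hypotheses
  of `IsCompData` (`cyc` with `l = 2`, `base`, the frames, `aut` for every level coming from `ℚ`)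
  and the facts needed by the construction of the families (`base_level`, `orbit_all`,
  `fibre`).  `u` = a prime of `ℚ` which SPLITS in `F`, prime to the level and to the exceptional
  set of `ConstOnFibresQ`; `o 0`, `o 1` = the two places over `u`.
* **`ProjQC962 n`** (leaf, ONE field, over `ℚ`, per type): the orthogonal projection of a cusp
  function of type `n` on the invariant ones `L2Q.IsWFnQ n`.  For `n = w0` this IS the cyclic leaf
  `H893.ProjC ℚ` (`projQC_w0_of962`, proved in the top file); for `n = w1` the same averaging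
  (finite group `U(𝔫₀) I_u / U(𝔫)`, compact torus of positive scalars) for the type `wtOne`:
  the averages are over elements which commute with `K_∞ = SO(2)` (finite adeles, centre).
  Upstairs (`F`, trivial type) the projection is `H893.ProjC F` itself.
* **`FamQC962 P F`** (NODE): for a common part and ONE bad `g` the part depending on `g` exists,
  `L2QFam962` with `IsL2QFam962` = the fields of `IsL2QData` at `g` except the projections.
  Its second cut is the mirror of the second cut of `H893.FamC`, with T3 over `ℚ` (station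
  T3.18R: Eisenstein-killing test functions of the types `w0`, `w1`) and `T6.ArchMatchC`.

The top assembles `Dt` with the axiom of choice over the bad `g` (junk at the other `g`).
-/

set_option autoImplicit false

open AutomorphicForm IsDedekindDomain NumberField MeasureTheory
open scoped ComplexConjugate

noncomputable section

namespace Fermat.Agent.LT.T7.H962

open Fermat.Agent.LT.H556 Fermat.Agent.LT.H556.A0 Fermat.Agent.LT.T7 Fermat.Agent.LT.T7.L2Q
  Fermat.Agent.LT.T7.H893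

attribute [local instance] Fermat.Agent.LT.T5.instMeasurableSpaceG

/-! ## 1. The common part -/

section Base

variable (F : Type) [Field F] [NumberField F]

/-- The COMMON part of an `L2QData`. -/
structure L2QBase962 where
  /-- the conjugation of `F` with its extension to the adeles -/
  s : T5.AdelicAut F
  /-- the image of `ℚ` in `F` -/
  k : Subfield F
  /-- the frame downstairs -/
  R : Frame5 ℚ
  /-- the frame upstairs -/
  R' : Frame5 F
  /-- the base level upstairs -/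
  𝔑₀ : Ideal (𝓞 F)
  /-- the places of `F` dividing the base level -/
  S' : Finset (HeightOneSpectrum (𝓞 F))
  /-- the primes of `ℚ` under `S'` -/
  S : Finset ℕ
  /-- the regular place of `ℚ` -/
  u : HeightOneSpectrum (𝓞 ℚ)
  /-- the `σ`-orbit over `u` -/
  o : ℕ → HeightOneSpectrum (𝓞 F)

/-- The part of an `L2QData` which depends on the bad element (for ONE bad element). -/
structure L2QFam962 where
  /-- the level downstairs -/
  𝔫 : Ideal (𝓞 ℚ)
  /-- the scalar of the Eisenstein-killing base on the eigen-classes -/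
  c : EigData F → ℂ
  /-- the family upstairs -/
  φ' : List (Gen F) → ℤ → ℕ → G F → ℂ
  /-- the two families downstairs (trivial type, weight one) -/
  f : QWt → List (Gen F) → ℤ → ℕ → G ℚ → ℂ
  /-- the regular depth -/
  m₀ : List (Gen F) → ℕ

variable {F}

/-- `g` is supported at the bad places (`L2QData.IsBad` for the common part). -/
def L2QBase962.IsBad (B : L2QBase962 F) (g : G F) : Prop :=
  (∀ w : InfinitePlace F, TrivAtInf w g) ∧
    ∀ v : HeightOneSpectrum (𝓞 F), (v ∉ B.S' ∨ ∃ j < 2, v = B.o j) → TrivAtFin v g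

/-- The data of the comparison for the level `𝔫` downstairs (`L2QData.comp`). -/
def L2QBase962.comp (B : L2QBase962 F) (𝔫 : Ideal (𝓞 ℚ)) : CompData ℚ F where
  l := 2
  s := B.s
  k := B.k
  𝔫 := 𝔫
  𝔑 := upI (K' := F) 𝔫
  R := B.R
  R' := B.R'

/-- The `L2QData` with common part `B` and `g`-part `Fm g`. -/
def L2QBase962.toData (B : L2QBase962 F) (Fm : G F → L2QFam962 F) : L2QData F where
  s := B.s
  k := B.k
  R := B.R
  R' := B.R'
  𝔑₀ := B.𝔑₀
  S' := B.S'
  S := B.S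
  u := B.u
  o := B.o
  𝔫 := fun g => (Fm g).𝔫
  c := fun g => (Fm g).c
  φ' := fun g => (Fm g).φ'
  f := fun n g => (Fm g).f n
  m₀ := fun g => (Fm g).m₀

/-- The sum of the two members downstairs (`L2QData.fsum` for one `g`-part). -/
def L2QFam962.fsum (Fm : L2QFam962 F) (X : List (Gen F)) (k : ℤ) (m : ℕ) : G ℚ → ℂ :=
  fun x => Fm.f QWt.w0 X k m x + Fm.f QWt.w1 X k m x

/-- **THE PROPERTIES OF THE COMMON PART** (quadratic step). -/
structure IsL2QBase962 (Φ : HeckeEigensystem F ℂ) (B : L2QBase962 F) : Prop where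
  /-- `σ` generates a group of order `2` with fixed field `k` -/
  cyc : T5.IsCyclicOfDegree B.s 2 B.k
  /-- `k` is the image of `ℚ` -/
  base : ∀ x : F, x ∈ B.k ↔ ∃ y : ℚ, algebraMap ℚ F y = x
  frame : IsFrame5 B.R
  frame' : IsFrame5 B.R'
  /-- `σ` preserves the frame upstairs, for every level which comes from `ℚ` -/
  aut : ∀ 𝔫 : Ideal (𝓞 ℚ), T5.AutPreserves B.s (upI (K' := F) 𝔫) B.R'.μ B.R'.r
  level_le : B.𝔑₀ ≤ Φ.level
  mem_S' : ∀ w : HeightOneSpectrum (𝓞 F), w ∈ B.S' ↔ w.asIdeal ∣ B.𝔑₀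
  /-- the primes under `S'` lie in `S` -/
  under : ∀ p : ℕ, p.Prime → ∀ w : HeightOneSpectrum (𝓞 F), ((p : ℕ) : 𝓞 F) ∈ w.asIdeal →
    w ∈ B.S' → p ∈ B.S
  const : ∀ p : ℕ, p.Prime → p ∉ B.S →
    ∀ w w' : HeightOneSpectrum (𝓞 F), ((p : ℕ) : 𝓞 F) ∈ w.asIdeal →
      ((p : ℕ) : 𝓞 F) ∈ w'.asIdeal → Φ.a w = Φ.a w' ∧ Φ.b w = Φ.b w'
  orbit_rel : ∀ j : ℕ, T5.PlaceRel B.s (B.o j) (B.o (j + 1))
  orbit_ne : ∀ j : ℕ, 0 < j → j < 2 → B.o j ≠ B.o 0
  orbit_over : ∀ j : ℕ, PlaceOver ℚ F B.u (B.o j)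
  orbit_level : ∀ j : ℕ, B.o j ∈ B.S'
  orbit_good : ∀ j : ℕ, ¬ (B.o j).asIdeal ∣ Φ.level
  /-- the base level comes from `ℚ`, and `u` divides it exactly once -/
  base_level : ∃ 𝔫₀ : Ideal (𝓞 ℚ), 𝔫₀ ≠ ⊥ ∧ B.𝔑₀ = upI (K' := F) 𝔫₀ ∧
    B.u.asIdeal ∣ 𝔫₀ ∧ ¬ B.u.asIdeal ^ 2 ∣ 𝔫₀
  /-- the orbit is the set of all places over `u` -/
  orbit_all : ∀ w : HeightOneSpectrum (𝓞 F), PlaceOver ℚ F B.u w → ∃ j < 2, w = B.o j
  /-- `S'` is a union of fibres -/
  fibre : ∀ (v : HeightOneSpectrum (𝓞 ℚ)) (w w' : HeightOneSpectrum (𝓞 F)),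
    PlaceOver ℚ F v w → PlaceOver ℚ F v w' → w ∈ B.S' → w' ∈ B.S'

/-! ## 2. The part depending on the bad element -/

/-- **THE PROPERTIES OF THE `g`-PART** (the fields of `IsL2QData` at the bad element `g`, except
the orthogonal projections; `level_ne` is the field of `IsCompData`). -/
structure IsL2QFam962 (Φ : HeckeEigensystem F ℂ) (B : L2QBase962 F) (g : G F)
    (Fm : L2QFam962 F) : Prop where
  level_ne : Fm.𝔫 ≠ ⊥
  level_g : upI (K' := F) Fm.𝔫 ≤ B.𝔑₀
  mem_S'_g : ∀ w : HeightOneSpectrum (𝓞 F), w ∈ B.S' ↔ w.asIdeal ∣ upI (K' := F) Fm.𝔫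
  u_level : B.u.asIdeal ∣ Fm.𝔫
  ekprod_up : ∀ (X : List (Gen F)) (k : ℤ) (m : ℕ), (∀ x ∈ X, x.Out B.S') →
    IsEKProd (upI (K' := F) Fm.𝔫) B.R' (Fm.φ' X k m)
  ekprod_down : ∀ (n : QWt) (X : List (Gen F)) (k : ℤ) (m : ℕ), (∀ x ∈ X, x.Out B.S') →
    IsEKProdT n.type Fm.𝔫 B.R (Fm.f n X k m)
  reg_up : ∀ (X : List (Gen F)) (k : ℤ) (m : ℕ), (∀ x ∈ X, x.Out B.S') → Fm.m₀ X ≤ m →
    T5.IsTwRegular B.s 2 B.k (Fm.φ' X k m)
  reg_down : ∀ (n : QWt) (X : List (Gen F)) (k : ℤ) (m : ℕ), (∀ x ∈ X, x.Out B.S') →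
    Fm.m₀ X ≤ m → T5.IsTwRegular (T5.AdelicAut.id ℚ) 1 ⊤ (Fm.f n X k m)
  matched : ∀ (X : List (Gen F)) (k : ℤ) (m : ℕ), (∀ x ∈ X, x.Out B.S') → Fm.m₀ X ≤ m →
    IsGlobMatch (B.comp Fm.𝔫) (Fm.φ' X k m) (Fm.fsum X k m)
  base_ne : ∀ C : EigData F, C.AgreeOut B.S' (eigOf Φ) → Fm.c C ≠ 0
  op_up : ∀ (X : List (Gen F)) (k : ℤ) (m : ℕ), (∀ x ∈ X, x.Out B.S') →
    ∀ (ψ : G F → ℂ) (C : EigData F), IsEigFn B.𝔑₀ B.R'.r 2 B.o ψ C →
    ∀ (Hg H : Finset (G F)) (z : G F), IsDblCosetSystem B.𝔑₀ g Hg →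
      IsIwCosetSystem (B.o 0) H → IsScalarUniformizerAt (B.o 0) z →
      ∀ x : G F, T5.Rconv B.R'.μ (Fm.φ' X k m) ψ x
        = wordEv X C * Fm.c C * cosetOp Hg (shiftOp z k ((iwOp (B.o 0) H)^[m] ψ)) x
  kill_up : ∀ (X : List (Gen F)) (k : ℤ) (m : ℕ), (∀ x ∈ X, x.Out B.S') →
    ∀ ψ : G F → ℂ, T5.IsCuspFn (upI (K' := F) Fm.𝔫) T5.trivType B.R'.r ψ →
      (∀ χ : G F → ℂ, IsWFn B.𝔑₀ B.R'.r 2 B.o χ →
        T5.innerD B.R'.μ B.R'.F ψ χ = 0) →
      ∀ x : G F, T5.Rconv B.R'.μ (Fm.φ' X k m) ψ x = 0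
  op_down : ∀ (n : QWt) (X : List (Gen F)) (k : ℤ) (m : ℕ), (∀ x ∈ X, x.Out B.S') →
    ∀ (ψ : G ℚ → ℂ) (c : EigData ℚ) (C : EigData F),
      IsEigFnQ n Fm.𝔫 B.R.r B.u ψ c → IsBCDataQ n c C B.S →
    ∀ (H : Finset (G ℚ)) (z : G ℚ), IsIwCosetSystem B.u H → IsScalarUniformizerAt B.u z →
      ∀ x : G ℚ, T5.Rconv B.R.μ (Fm.f n X k m) ψ x
        = wordEv X C
          * T5.Rconv B.R.μ (Fm.f n [] 0 0) (shiftOp z k ((iwOp B.u H)^[m] ψ)) x
  class_down : ∀ (n : QWt) (ψ : G ℚ → ℂ) (c : EigData ℚ),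
    IsEigFnQ n Fm.𝔫 B.R.r B.u ψ c →
    IsEigFnQ n Fm.𝔫 B.R.r B.u (T5.Rconv B.R.μ (Fm.f n [] 0 0) ψ) c
  comm_down : ∀ (n : QWt) (ψ : G ℚ → ℂ), IsWFnQ n Fm.𝔫 B.R.r B.u ψ →
    ∀ (H : Finset (G ℚ)) (z : G ℚ), IsIwCosetSystem B.u H → IsScalarUniformizerAt B.u z →
      (∀ x : G ℚ, T5.Rconv B.R.μ (Fm.f n [] 0 0) (iwOp B.u H ψ) x
        = iwOp B.u H (T5.Rconv B.R.μ (Fm.f n [] 0 0) ψ) x) ∧
      ∀ (k : ℤ) (x : G ℚ), T5.Rconv B.R.μ (Fm.f n [] 0 0) (shiftOp z k ψ) x
        = shiftOp z k (T5.Rconv B.R.μ (Fm.f n [] 0 0) ψ) x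
  kill_down : ∀ (n : QWt) (X : List (Gen F)) (k : ℤ) (m : ℕ), (∀ x ∈ X, x.Out B.S') →
    ∀ ψ : G ℚ → ℂ, T5.IsCuspFn Fm.𝔫 n.type B.R.r ψ →
      (∀ χ : G ℚ → ℂ, IsWFnQ n Fm.𝔫 B.R.r B.u χ →
        T5.innerD B.R.μ B.R.F ψ χ = 0) →
      ∀ x : G ℚ, T5.Rconv B.R.μ (Fm.f n X k m) ψ x = 0

end Base

/-! ## 3. The leaves of the first cut -/

section Leaves

/-- **LEAF T7.L2Q.1.C3a = PROJ over `ℚ`, type `n`** (orthogonal projection on the invariant cusp
functions of type `n`; ONE field).  For a frame of `ℚ`, a base level `𝔫₀`, a level `𝔫 ⊆ 𝔫₀`,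
`𝔫 ≠ 0`, and a place `u` dividing `𝔫₀`: every cusp function `ψ` of level `𝔫` and type `n` has an
orthogonal projection `ψ₁` on the invariant cusp functions `L2Q.IsWFnQ n 𝔫₀ r u`.
Proof.  As `H893.ProjC` (averages over the finite group `U(𝔫₀) I_u / U(𝔫)` and over the compact
torus `A_∞ / ⟨r⟩ Λ`); the elements over which one averages are finite adeles or central, so they
commute with `K_∞` and the averages preserve the type `n`.  Over `ℚ` the torus is `ℝ_{>0} / ⟨r⟩`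
(the units are `± 1`).  For `n = w0` the statement is `H893.ProjC ℚ` (`projQC_w0_of962`). -/
def ProjQC962 (n : QWt) : Prop :=
  ∀ R : Frame5 ℚ, IsFrame5 R →
    ∀ 𝔫₀ 𝔫 : Ideal (𝓞 ℚ), 𝔫 ≠ ⊥ → 𝔫 ≤ 𝔫₀ →
    ∀ u : HeightOneSpectrum (𝓞 ℚ), u.asIdeal ∣ 𝔫₀ →
    ∀ ψ : G ℚ → ℂ, T5.IsCuspFn 𝔫 n.type R.r ψ →
      ∃ ψ₁ : G ℚ → ℂ, IsWFnQ n 𝔫₀ R.r u ψ₁ ∧
        ∀ χ : G ℚ → ℂ, IsWFnQ n 𝔫₀ R.r u χ →
          T5.innerD R.μ R.F (fun x => ψ x - ψ₁ x) χ = 0

variable (P : EKCond)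
variable (F : Type) [Field F] [NumberField F]

/-- **LEAF T7.L2Q.1.C0 = SETUP over `ℚ`** (algebraic number theory + adapters of T1; mirror of
`H893.SetupC`).  The common part exists.
Proof.  `σ` = the conjugation of `F` (`F/ℚ` is Galois of degree `2`), extended to the adeles;
`k` = the image of `ℚ`; frames of `ℚ` and of `F` (T1); `u` = a prime of `ℚ` which splits in `F`
(`u ≡ 1 mod 3`: Dirichlet, or Chebotarev for the trivial class), prime to `Φ.level` and to the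
exceptional set of `ConstOnFibresQ`; `o 0`, `o 1` = the two places over `u`, `o (j + 2) = o j`;
`𝔫₀ = u · (Φ.level ∩ ℤ) · ∏ (the exceptional primes)`, `𝔑₀ = 𝔫₀ 𝒪_F`, `S'` = the prime divisors
of `𝔑₀`, `S` = the primes under `S'`. -/
def SetupQC962 : Prop :=
  HasSqrtNegThree F → IsImagQuad F →
    ∀ Φ : HeckeEigensystem F ℂ, A0.IsCuspAdelicSph0 F Φ → ConstOnFibresQ Φ →
      ∃ B : L2QBase962 F, IsL2QBase962 Φ B

/-- **NODE T7.L2Q.1.F = FAMILIES over `ℚ`**: for a common part and ONE bad element `g` the part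
depending on `g` exists.  See `IsL2QFam962`, the header of `T7/H826/Level2Q.lean` (changes
downstairs) and of `T7/Level2.lean` (SUPPLY).  Second cut = mirror of the second cut of
`H893.FamC`. -/
def FamQC962 : Prop :=
  HasSqrtNegThree F → IsImagQuad F →
    ∀ Φ : HeckeEigensystem F ℂ, A0.IsCuspAdelicSph0 F Φ → ConstOnFibresQ Φ → P F Φ →
      ∀ B : L2QBase962 F, IsL2QBase962 Φ B → ∀ g : G F, B.IsBad g →
        ∃ Fm : L2QFam962 F, IsL2QFam962 Φ B g Fm

end Leaves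

end Fermat.Agent.LT.T7.H962

end
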