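import Mathlib
import Fermat.Agent.LT.T7.H962.SupplyQSpec

/-!
# Row LT, tower T7, node T7.L2Q.1 `SupplyQC` (quadratic step): FIRST CUT -- proved top
# (helper962, ASSIST; mirror of `T7/H893/SupplyTop.lean`)

OFF-MAIN.  No hole, nothing assumed.  ADDITIVE.

    supplyQC_of962  : SetupQC962 F → H893.ProjC F → ProjQC962 w0 → ProjQC962 w1 → FamQC962 P F
                        → L2Q.SupplyQC P F
    supplyQC_of962' : SetupQC962 F → H893.ProjC F → H893.ProjC ℚ → ProjQC962 w1 → FamQC962 P F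
                        → L2Q.SupplyQC P F
    projQC_w0_of962 : H893.ProjC ℚ → ProjQC962 w0
-/

set_option autoImplicit false

open AutomorphicForm IsDedekindDomain NumberField MeasureTheory
open scoped ComplexConjugate

noncomputable section

namespace Fermat.Agent.LT.T7.H962

open Fermat.Agent.LT.H556 Fermat.Agent.LT.H556.A0 Fermat.Agent.LT.T7 Fermat.Agent.LT.T7.L2Q
  Fermat.Agent.LT.T7.H893

attribute [local instance] Fermat.Agent.LT.T5.instMeasurableSpaceG

section Proj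

/-- An invariant cusp function of the trivial type over `ℚ` in the sense of the cyclic step. -/
theorem isWFn_of_isWFnQ962 {𝔫 : Ideal (𝓞 ℚ)} {r : G ℚ} {u : HeightOneSpectrum (𝓞 ℚ)}
    {ψ : G ℚ → ℂ} (h : IsWFnQ QWt.w0 𝔫 r u ψ) : IsWFn 𝔫 r 1 (fun _ => u) ψ :=
  ⟨h.cusp, h.arch_scalar, h.iw⟩

/-- An invariant cusp function of the cyclic step over `ℚ` is one of the trivial type. -/
theorem isWFnQ_of_isWFn962 {𝔫 : Ideal (𝓞 ℚ)} {r : G ℚ} {u : HeightOneSpectrum (𝓞 ℚ)}
    {ψ : G ℚ → ℂ} (h : IsWFn 𝔫 r 1 (fun _ => u) ψ) : IsWFnQ QWt.w0 𝔫 r u ψ :=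
  ⟨h.cusp, h.arch_scalar, h.iw⟩

/-- **The projection of the trivial type over `ℚ` is the cyclic leaf `H893.ProjC ℚ`.** -/
theorem projQC_w0_of962 (hP : H893.ProjC ℚ) : ProjQC962 QWt.w0 := by
  intro R hR 𝔫₀ 𝔫 h𝔫 hle u hu ψ hψ
  obtain ⟨ψ₁, h₁, horth⟩ := hP R hR 𝔫₀ 𝔫 h𝔫 hle 1 (fun _ => u) (fun _ => hu) ψ hψ
  exact ⟨ψ₁, isWFnQ_of_isWFn962 h₁, fun χ hχ => horth χ (isWFn_of_isWFnQ962 hχ)⟩

end Proj

section Top

variable {P : EKCond}
variable {F : Type} [Field F] [NumberField F]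

/-- The extension of a nonzero ideal of `ℚ` is nonzero. -/
theorem upI_ne_bot962 {𝔫 : Ideal (𝓞 ℚ)} (h : 𝔫 ≠ ⊥) : upI (K' := F) 𝔫 ≠ ⊥ := by
  unfold upI
  intro h0
  rw [Ideal.map_eq_bot_iff_of_injective (FaithfulSMul.algebraMap_injective (𝓞 ℚ) (𝓞 F))] at h0
  exact h h0

/-- The data of the comparison are good for every nonzero level. -/
theorem isCompData_comp962 {Φ : HeckeEigensystem F ℂ} {B : L2QBase962 F}
    (hB : IsL2QBase962 Φ B) {𝔫 : Ideal (𝓞 ℚ)} (h : 𝔫 ≠ ⊥) : IsCompData (B.comp 𝔫) where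
  cyc := hB.cyc
  base := hB.base
  level_ne := h
  level := rfl
  frame := hB.frame
  frame' := hB.frame'
  aut := hB.aut 𝔫

/-- **The assembly of an `L2QData`** from a common part and `g`-parts at the bad elements. -/
theorem isL2QData_toData962 {Φ : HeckeEigensystem F ℂ} {B : L2QBase962 F}
    (hB : IsL2QBase962 Φ B) (hP' : H893.ProjC F) (hPQ : ∀ n : QWt, ProjQC962 n)
    (Fm : G F → L2QFam962 F)
    (hFm : ∀ g : G F, B.IsBad g → IsL2QFam962 Φ B g (Fm g)) :
    IsL2QData Φ (B.toData Fm) where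
  comp := fun g hg => isCompData_comp962 hB (hFm g hg).level_ne
  level_le := hB.level_le
  level_g := fun g hg => (hFm g hg).level_g
  mem_S' := hB.mem_S'
  mem_S'_g := fun g hg => (hFm g hg).mem_S'_g
  under := hB.under
  const := hB.const
  orbit_rel := hB.orbit_rel
  orbit_ne := hB.orbit_ne
  orbit_over := hB.orbit_over
  orbit_level := hB.orbit_level
  orbit_good := hB.orbit_good
  u_level := fun g hg => (hFm g hg).u_level
  ekprod_up := fun g X k m hg hX => (hFm g hg).ekprod_up X k m hX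
  ekprod_down := fun n g X k m hg hX => (hFm g hg).ekprod_down n X k m hX
  reg_up := fun g X k m hg hX hm => (hFm g hg).reg_up X k m hX hm
  reg_down := fun n g X k m hg hX hm => (hFm g hg).reg_down n X k m hX hm
  matched := fun g X k m hg hX hm => (hFm g hg).matched X k m hX hm
  base_ne := fun g hg => (hFm g hg).base_ne
  op_up := fun g X k m hg hX => (hFm g hg).op_up X k m hX
  kill_up := fun g X k m hg hX => (hFm g hg).kill_up X k m hX
  proj_up := fun g hg ψ hψ =>
    hP' B.R' hB.frame' B.𝔑₀ (upI (K' := F) (Fm g).𝔫) (upI_ne_bot962 (hFm g hg).level_ne)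
      (hFm g hg).level_g 2 B.o (fun j => (hB.mem_S' (B.o j)).1 (hB.orbit_level j)) ψ hψ
  op_down := fun n g X k m hg hX => (hFm g hg).op_down n X k m hX
  class_down := fun n g hg => (hFm g hg).class_down n
  comm_down := fun n g hg => (hFm g hg).comm_down n
  kill_down := fun n g X k m hg hX => (hFm g hg).kill_down n X k m hX
  proj_down := fun n g hg ψ hψ =>
    hPQ n B.R hB.frame (Fm g).𝔫 (Fm g).𝔫 (hFm g hg).level_ne le_rfl B.u
      (hFm g hg).u_level ψ hψ

/-- **THE TOP OF THE FIRST CUT of T7.L2Q.1**: the supply over `ℚ` from the setup, the orthogonal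
projections (upstairs: the cyclic leaf over `F`; downstairs: per type) and the families for one
bad element. -/
theorem supplyQC_of962 (hS : SetupQC962 F) (hP' : H893.ProjC F) (hP0 : ProjQC962 QWt.w0)
    (hP1 : ProjQC962 QWt.w1) (hF : FamQC962 P F) : SupplyQC P F := by
  intro h3 hquad Φ hΦ hconst hPΦ
  obtain ⟨B, hB⟩ := hS h3 hquad Φ hΦ hconst
  have hex : ∀ g : G F, ∃ Fm : L2QFam962 F, B.IsBad g → IsL2QFam962 Φ B g Fm := by
    intro g
    by_cases hg : B.IsBad g
    · obtain ⟨Fm, h⟩ := hF h3 hquad Φ hΦ hconst hPΦ B hB g hg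
      exact ⟨Fm, fun _ => h⟩
    · exact ⟨⟨⊥, fun _ => 0, fun _ _ _ _ => 0, fun _ _ _ _ _ => 0, fun _ => 0⟩,
        fun h => absurd h hg⟩
  choose Fm hFm using hex
  have hPQ : ∀ n : QWt, ProjQC962 n := fun n => by
    cases n
    · exact hP0
    · exact hP1
  exact ⟨B.toData Fm, isL2QData_toData962 hB hP' hPQ Fm hFm⟩

/-- The same with the cyclic leaf `H893.ProjC ℚ` for the trivial type. -/
theorem supplyQC_of962' (hS : SetupQC962 F) (hP' : H893.ProjC F) (hP : H893.ProjC ℚ)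
    (hP1 : ProjQC962 QWt.w1) (hF : FamQC962 P F) : SupplyQC P F :=
  supplyQC_of962 hS hP' (projQC_w0_of962 hP) hP1 hF

end Top

end Fermat.Agent.LT.T7.H962

end
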